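import Fermat.Agent.S29.H201.Transfer
import Fermat.Agent.S29.H271.HCoh

/-!
# S29 layer M, piece E2 adapter, sub-piece (A) (helper321)

`heckeHom` (helper201's transfer-formula Hecke operator on `Hom(Γ₀(N), A)`) preserves the
property "vanishes on parabolic elements (`tr² = 4`) and on elements of finite order".

Cycle argument: on a closed orbit segment `x, πx, …, π^{k-1}x` (`π^k x = x`) of the permutation
`π = permOf γ`, the sum of the `χ (trf γ (π^m x))` is `χ (trf (γ^k) x)`, and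
`trf (γ^k) x = α γ^k α⁻¹` (`α = heckeRep p x`) has the trace of `γ^k`, resp. finite order.
The orbit-sum lemma is helper271's `HCoh_sum_eq_zero_of_orbits` (on main).
-/

set_option autoImplicit false

open CongruenceSubgroup Matrix.SpecialLinearGroup
open scoped MatrixGroups
open P2MW.S_ModularForm_heckeT_slash_eq_self_of_mem_Gamma0.ModularForm.HeckeSlashInvariance
open Fermat.Agent.S29.H201

namespace Fermat.Agent.S29.H321

variable {N : ℕ} {p : ℕ} [Fact p.Prime]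

theorem Pe_redMatrix_pow (g : SL(2, ℤ)) (k : ℕ) :
    redMatrix p (g ^ k) = redMatrix p g ^ k := by
  induction k with
  | zero => simp [redMatrix_one]
  | succ k ih => rw [pow_succ, redMatrix_mul, ih, pow_succ']

theorem Pe_redMatrix_pow_smul (γ : Gamma0 N) (k : ℕ) (x : OnePoint (ZMod p)) :
    redMatrix p (((γ ^ k : Gamma0 N)) : SL(2, ℤ)) • x = ((permOf γ) ^ k) x := by
  rw [Subgroup.coe_pow, Pe_redMatrix_pow]
  induction k generalizing x with
  | zero => simp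
  | succ k ih =>
    rw [pow_succ, mul_smul, pow_succ, Equiv.Perm.mul_apply, permOf_apply, ih]

/-- Iterated cocycle rule. -/
theorem Pe_map_trf_pow (hpN : ¬ p ∣ N) {A : Type*} [AddCommGroup A]
    (χ : Additive (Gamma0 N) →+ A) (γ : Gamma0 N) (k : ℕ) (x : OnePoint (ZMod p)) :
    χ (Additive.ofMul (trf hpN (γ ^ k) x))
      = ∑ m ∈ Finset.range k, χ (Additive.ofMul (trf hpN γ (((permOf γ) ^ m) x))) := by
  induction k with
  | zero =>
    rw [pow_zero, trf_one, ofMul_one, map_zero, Finset.range_zero, Finset.sum_empty]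
  | succ k ih =>
    rw [pow_succ, trf_mul, ofMul_mul, map_add, ih, Finset.sum_range_succ,
      Pe_redMatrix_pow_smul]

/-- On a closed orbit segment, `trf (γ^k) x` is conjugate to `γ^k` by `heckeRep p x`. -/
theorem Pe_closed (hpN : ¬ p ∣ N) (γ : Gamma0 N) (k : ℕ) (x : OnePoint (ZMod p))
    (hx : ((permOf γ) ^ k) x = x) :
    P2MW.S_ModularForm_heckeT_slash_eq_self_of_mem_Gamma0.ModularForm.HeckeSlashInvariance.heckeRep p x * mapGL ℝ (((γ ^ k : Gamma0 N)) : SL(2, ℤ))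
      = mapGL ℝ ((trf hpN (γ ^ k) x : Gamma0 N) : SL(2, ℤ)) *
        P2MW.S_ModularForm_heckeT_slash_eq_self_of_mem_Gamma0.ModularForm.HeckeSlashInvariance.heckeRep p x := by
  have h := trf_spec hpN (γ ^ k) x
  rw [Pe_redMatrix_pow_smul, hx] at h
  exact h

theorem Pe_trace_mapGL (s : SL(2, ℤ)) :
    ((mapGL ℝ s : GL (Fin 2) ℝ) : Matrix (Fin 2) (Fin 2) ℝ).trace
      = (((s : Matrix (Fin 2) (Fin 2) ℤ).trace : ℤ) : ℝ) := by
  simp [Matrix.trace_fin_two]

/-- Conjugate elements have the same trace. -/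
theorem Pe_trace_eq {α : GL (Fin 2) ℝ} {s t : SL(2, ℤ)}
    (h : α * mapGL ℝ s = mapGL ℝ t * α) :
    (t : Matrix (Fin 2) (Fin 2) ℤ).trace = (s : Matrix (Fin 2) (Fin 2) ℤ).trace := by
  have h1 : mapGL ℝ t = α * mapGL ℝ s * α⁻¹ := by
    rw [h, mul_inv_cancel_right]
  have h2 : ((mapGL ℝ t : GL (Fin 2) ℝ) : Matrix (Fin 2) (Fin 2) ℝ).trace
      = ((mapGL ℝ s : GL (Fin 2) ℝ) : Matrix (Fin 2) (Fin 2) ℝ).trace := by
    rw [h1, Matrix.GeneralLinearGroup.coe_mul, Matrix.GeneralLinearGroup.coe_mul,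
      Matrix.trace_mul_comm, ← Matrix.mul_assoc, ← Matrix.GeneralLinearGroup.coe_mul,
      inv_mul_cancel, Matrix.GeneralLinearGroup.coe_one, Matrix.one_mul]
  rw [Pe_trace_mapGL, Pe_trace_mapGL] at h2
  exact_mod_cast h2

theorem Pe_pow_eq_one {α : GL (Fin 2) ℝ} {s t : SL(2, ℤ)}
    (h : α * mapGL ℝ s = mapGL ℝ t * α) (n : ℕ) (hs : s ^ n = 1) : t ^ n = 1 := by
  have h1 : mapGL ℝ t = α * mapGL ℝ s * α⁻¹ := by
    rw [h, mul_inv_cancel_right]
  apply mapGL_injective (R := ℤ) (S := ℝ)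
  rw [map_pow, h1, conj_pow, ← map_pow, hs, map_one, mul_one, mul_inv_cancel]

theorem Pe_trace_sq_pow (γ : Gamma0 N)
    (hγ : ((γ : SL(2, ℤ)) : Matrix (Fin 2) (Fin 2) ℤ).trace ^ 2 = 4) (k : ℕ) :
    ((((γ ^ k : Gamma0 N)) : SL(2, ℤ)) : Matrix (Fin 2) (Fin 2) ℤ).trace ^ 2 = 4 := by
  have h2 : ((γ : SL(2, ℤ)) : Matrix (Fin 2) (Fin 2) ℤ).trace = 2 ∨
      ((γ : SL(2, ℤ)) : Matrix (Fin 2) (Fin 2) ℤ).trace = -2 := by
    have h3 : (((γ : SL(2, ℤ)) : Matrix (Fin 2) (Fin 2) ℤ).trace - 2) *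
        (((γ : SL(2, ℤ)) : Matrix (Fin 2) (Fin 2) ℤ).trace + 2) = 0 := by
      linear_combination hγ
    rcases mul_eq_zero.mp h3 with h | h
    · left; linarith
    · right; linarith
  have h4 := Fermat.Agent.S29.H271.HCoh_trace_pow (G := ((γ : SL(2, ℤ)) : Matrix (Fin 2) (Fin 2) ℤ))
    (γ : SL(2, ℤ)).2 h2 k
  rw [Subgroup.coe_pow, Matrix.SpecialLinearGroup.coe_pow]
  rcases h4 with h | h <;> rw [h] <;> norm_num

/-- **(A), unfolded form**: `heckeHom` preserves vanishing on parabolic elements and on elements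
of finite order. -/
theorem Pe_heckeHom_pe (hpN : ¬ p ∣ N) {A : Type*} [AddCommGroup A]
    {χ : Additive (Gamma0 N) →+ A}
    (h1 : ∀ γ : Gamma0 N,
      ((γ : SL(2, ℤ)) : Matrix (Fin 2) (Fin 2) ℤ).trace ^ 2 = 4 → χ (Additive.ofMul γ) = 0)
    (h2 : ∀ γ : Gamma0 N, IsOfFinOrder γ → χ (Additive.ofMul γ) = 0) :
    (∀ γ : Gamma0 N,
      ((γ : SL(2, ℤ)) : Matrix (Fin 2) (Fin 2) ℤ).trace ^ 2 = 4 →
        heckeHom p hpN A χ (Additive.ofMul γ) = 0) ∧
    (∀ γ : Gamma0 N, IsOfFinOrder γ → heckeHom p hpN A χ (Additive.ofMul γ) = 0) := by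
  classical
  refine ⟨fun γ hγ => ?_, fun γ hγ => ?_⟩
  · rw [heckeHom_apply]
    apply Fermat.Agent.S29.H271.HCoh_sum_eq_zero_of_orbits (permOf γ)
    intro x k _ hx
    rw [← Pe_map_trf_pow hpN χ γ k x]
    apply h1
    rw [Pe_trace_eq (Pe_closed hpN γ k x hx)]
    exact Pe_trace_sq_pow γ hγ k
  · rw [heckeHom_apply]
    apply Fermat.Agent.S29.H271.HCoh_sum_eq_zero_of_orbits (permOf γ)
    intro x k _ hx
    rw [← Pe_map_trf_pow hpN χ γ k x]
    apply h2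
    obtain ⟨n, hn, hγn⟩ := isOfFinOrder_iff_pow_eq_one.mp hγ
    refine isOfFinOrder_iff_pow_eq_one.mpr ⟨n, hn, ?_⟩
    apply Subtype.ext
    rw [Subgroup.coe_pow, Subgroup.coe_one]
    apply Pe_pow_eq_one (Pe_closed hpN γ k x hx) n
    have h3 : (γ ^ k) ^ n = 1 := by
      rw [← pow_mul, mul_comm, pow_mul, hγn, one_pow]
    rw [← Subgroup.coe_pow, h3, Subgroup.coe_one]

end Fermat.Agent.S29.H321
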